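import Mathlib
import Fermat.Agent.S49.LinAlg
import Fermat.Agent.S49.GoingUp
import Fermat.Agent.S41.Spec.DS

/-!
# Row S41, block DS: Deligne–Serre lifting on a lattice

`ds_abstract` : a commutative ring `A` acting on a finite-dimensional complex vector space `W`
preserving a finitely generated spanning subgroup `K`; `y ∈ K ∖ pK`.  Then there are a nonzero
simultaneous eigenvector `g`, an eigencharacter `χ : A →+* ℤ̄` and a maximal ideal `𝔪'` of `ℤ̄`
such that `χ a ∈ 𝔪'` whenever `ρ a y ∈ p K`.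

`ds_general` : the same for a family of operators on an arbitrary complex vector space `V`
commuting on a finitely generated stable subgroup `K` (universe polymorphic).

`ds : Spec.DSStatement`.
-/

set_option autoImplicit false

namespace Fermat.Agent.S41.H401

section Abstract

variable {A : Type*} [CommRing A] {W : Type*} [AddCommGroup W] [Module ℂ W]

/-- A finitely generated spanning subgroup forces finite dimension. -/
theorem finiteDimensional_of_fg_span (K : AddSubgroup W) (hK : K.FG)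
    (hspan : Submodule.span ℂ (K : Set W) = ⊤) : FiniteDimensional ℂ W := by
  obtain ⟨s, hs⟩ := hK
  have h1 : K ≤ (Submodule.span ℂ (s : Set W)).toAddSubgroup := by
    rw [← hs, AddSubgroup.closure_le]
    exact Submodule.subset_span
  have h2 : Submodule.span ℂ (s : Set W) = ⊤ := by
    rw [eq_top_iff, ← hspan, Submodule.span_le]
    exact h1
  exact Module.finite_def.mpr ⟨s, h2⟩

/-- Restriction of the action to the lattice `K`, as a ring homomorphism into `End_ℤ K`. -/
noncomputable def dsRes (ρ : A →+* Module.End ℂ W) (K : AddSubgroup W)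
    (hstab : ∀ a, ∀ x ∈ K, ρ a x ∈ K) : A →+* Module.End ℤ (AddSubgroup.toIntSubmodule K) where
  toFun a := ((ρ a).restrictScalars ℤ).restrict (p := AddSubgroup.toIntSubmodule K)
    (fun x hx => hstab a x hx)
  map_one' := by
    ext x
    simp
  map_mul' a b := by
    ext x
    simp [LinearMap.restrict_apply]
  map_zero' := by
    ext x
    simp [LinearMap.restrict_apply]
  map_add' a b := by
    ext x
    simp [LinearMap.restrict_apply]

theorem dsRes_apply (ρ : A →+* Module.End ℂ W) (K : AddSubgroup W)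
    (hstab : ∀ a, ∀ x ∈ K, ρ a x ∈ K) (a : A) (x : AddSubgroup.toIntSubmodule K) :
    ((dsRes ρ K hstab a x : AddSubgroup.toIntSubmodule K) : W) = ρ a (x : W) := rfl

/-- If the restriction to a spanning lattice vanishes, the operator vanishes. -/
theorem rho_eq_zero_of_dsRes (ρ : A →+* Module.End ℂ W) (K : AddSubgroup W)
    (hspan : Submodule.span ℂ (K : Set W) = ⊤)
    (hstab : ∀ a, ∀ x ∈ K, ρ a x ∈ K) (a : A) (h : dsRes ρ K hstab a = 0) : ρ a = 0 := by
  apply LinearMap.ext_on hspan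
  intro x hx
  have := congrArg (fun f => ((f ⟨x, hx⟩ : AddSubgroup.toIntSubmodule K) : W)) h
  simpa [dsRes_apply] using this

/-- Eigenvalues of an integral action are algebraic integers. -/
theorem isIntegral_eigenvalue (ρ : A →+* Module.End ℂ W) (K : AddSubgroup W) (hK : K.FG)
    (hspan : Submodule.span ℂ (K : Set W) = ⊤)
    (hstab : ∀ a, ∀ x ∈ K, ρ a x ∈ K) (g : W) (hg : g ≠ 0) (χ : A →+* ℂ)
    (hχ : ∀ a, ρ a g = χ a • g) (a : A) : IsIntegral ℤ (χ a) := by
  have : Module.Finite ℤ (AddSubgroup.toIntSubmodule K) := by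
    rw [Module.Finite.iff_fg, Submodule.fg_iff_addSubgroup_fg]
    exact hK
  obtain ⟨q, hq, hq0⟩ :=
    (Algebra.IsIntegral.isIntegral (R := ℤ) (dsRes ρ K hstab a))
  have h1 : dsRes ρ K hstab (Polynomial.eval₂ (algebraMap ℤ A) a q) = 0 := by
    rw [Polynomial.hom_eval₂]
    rw [← hq0]
    congr 1
    exact Subsingleton.elim _ _
  have h2 : ρ (Polynomial.eval₂ (algebraMap ℤ A) a q) = 0 :=
    rho_eq_zero_of_dsRes ρ K hspan hstab _ h1
  have h3 : χ (Polynomial.eval₂ (algebraMap ℤ A) a q) = 0 := by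
    have h4 := hχ (Polynomial.eval₂ (algebraMap ℤ A) a q)
    rw [h2, LinearMap.zero_apply] at h4
    rcases smul_eq_zero.mp h4.symm with h5 | h5
    · exact h5
    · exact absurd h5 hg
  refine ⟨q, hq, ?_⟩
  rw [Polynomial.hom_eval₂] at h3
  rw [← h3]
  congr 1
  exact Subsingleton.elim _ _

/-- The ideal of operators sending `y` into `p K`. -/
def dsIdeal (ρ : A →+* Module.End ℂ W) (K : AddSubgroup W)
    (hstab : ∀ a, ∀ x ∈ K, ρ a x ∈ K) (p : ℕ) (y : W) : Ideal A where
  carrier := {a | ∃ z ∈ K, ρ a y = p • z}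
  zero_mem' := ⟨0, K.zero_mem, by simp⟩
  add_mem' := by
    rintro a b ⟨z, hz, hza⟩ ⟨w, hw, hwb⟩
    exact ⟨z + w, K.add_mem hz hw, by simp [hza, hwb]⟩
  smul_mem' := by
    rintro c a ⟨z, hz, hza⟩
    refine ⟨ρ c z, hstab c z hz, ?_⟩
    simp [hza]

theorem mem_dsIdeal (ρ : A →+* Module.End ℂ W) (K : AddSubgroup W)
    (hstab : ∀ a, ∀ x ∈ K, ρ a x ∈ K) (p : ℕ) (y : W) (a : A) :
    a ∈ dsIdeal ρ K hstab p y ↔ ∃ z ∈ K, ρ a y = p • z := Iff.rfl

/-- **Deligne–Serre lifting lemma, lattice form.** -/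
theorem ds_abstract (ρ : A →+* Module.End ℂ W) (K : AddSubgroup W) (hK : K.FG)
    (hspan : Submodule.span ℂ (K : Set W) = ⊤)
    (hstab : ∀ a, ∀ x ∈ K, ρ a x ∈ K) (p : ℕ) (y : W) (hyp : ∀ z ∈ K, y ≠ p • z) :
    ∃ (g : W) (χ : A →+* integralClosure ℤ ℂ) (𝔪' : Ideal (integralClosure ℤ ℂ)),
      g ≠ 0 ∧ (∀ a, ρ a g = (χ a : ℂ) • g) ∧ 𝔪'.IsMaximal ∧
      ∀ a, (∃ z ∈ K, ρ a y = p • z) → χ a ∈ 𝔪' := by
  have : FiniteDimensional ℂ W := finiteDimensional_of_fg_span K hK hspan
  have hJ : dsIdeal ρ K hstab p y ≠ ⊤ := by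
    intro h
    have h1 : (1 : A) ∈ dsIdeal ρ K hstab p y := h ▸ Submodule.mem_top
    obtain ⟨z, hz, hz1⟩ := (mem_dsIdeal ρ K hstab p y 1).mp h1
    apply hyp z hz
    simpa using hz1
  obtain ⟨𝔫, h𝔫, hJ𝔫⟩ := Ideal.exists_le_maximal _ hJ
  have := h𝔫
  have hker : RingHom.ker ρ ≤ 𝔫 := by
    intro a ha
    apply hJ𝔫
    rw [RingHom.mem_ker] at ha
    exact ⟨0, K.zero_mem, by simp [ha]⟩
  obtain ⟨g, χ, hg, hχ, hχ𝔫⟩ :=
    Fermat.Agent.S49.exists_eigenvector_ker_le' (K := ℂ) (V := W) ρ 𝔫 hker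
  have hint : ∀ a, χ a ∈ integralClosure ℤ ℂ := fun a =>
    isIntegral_eigenvalue ρ K hK hspan hstab g hg χ hχ a
  let χ' : A →+* integralClosure ℤ ℂ := χ.codRestrict (integralClosure ℤ ℂ) hint
  have hχ' : ∀ a, ((χ' a : integralClosure ℤ ℂ) : ℂ) = χ a := fun a => rfl
  have hker' : RingHom.ker χ' ≤ 𝔫 := by
    intro a ha
    apply hχ𝔫
    rw [RingHom.mem_ker] at ha ⊢
    rw [← hχ' a, ha]
    rfl
  obtain ⟨𝔪', h𝔪', h𝔪'𝔫⟩ := Fermat.Agent.S49.exists_maximal_over χ' 𝔫 hker'
  refine ⟨g, χ', 𝔪', hg, fun a => ?_, h𝔪', fun a ha => ?_⟩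
  · rw [hχ' a]
    exact hχ a
  · exact h𝔪'𝔫 a (hJ𝔫 ha)

end Abstract

section General

universe u v
variable {ι : Type u} {V : Type v} [AddCommGroup V] [Module ℂ V]

/-- Pulling a finitely generated subgroup back to a subspace containing it. -/
theorem fg_comap_subtype (W : Submodule ℂ V) (K : AddSubgroup V) (hKW : ∀ x ∈ K, x ∈ W)
    (hK : K.FG) : (K.comap W.subtype.toAddMonoidHom).FG := by
  have h1 : (AddSubgroup.toIntSubmodule (K.comap W.subtype.toAddMonoidHom)).FG := by
    apply Submodule.fg_of_fg_map_injective (W.subtype.restrictScalars ℤ) Subtype.val_injective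
    have h2 : (AddSubgroup.toIntSubmodule (K.comap W.subtype.toAddMonoidHom)).map
        (W.subtype.restrictScalars ℤ) = AddSubgroup.toIntSubmodule K := by
      ext x
      constructor
      · rintro ⟨w, hw, rfl⟩
        exact hw
      · intro hx
        exact ⟨⟨x, hKW x hx⟩, hx, rfl⟩
    rw [h2, Submodule.fg_iff_addSubgroup_fg]
    exact hK
  rw [Submodule.fg_iff_addSubgroup_fg] at h1
  exact h1

/-- **Block DS, general (universe polymorphic) form.**  A family of operators `T i` on a complex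
vector space commuting on a finitely generated stable subgroup `K`; `y ∈ K ∖ pK` with
`T i y ≡ lam i • y mod pK` for `i ∈ S`.  Then there is a nonzero simultaneous eigenvector of all
`T i` in `span_ℂ K` whose eigenvalues are algebraic integers, congruent to `lam i` (`i ∈ S`)
modulo a maximal ideal of `ℤ̄` containing `p`. -/
theorem ds_general (T : ι → Module.End ℂ V) (K : AddSubgroup V)
    (hK : K.FG) (hstab : ∀ i, ∀ x ∈ K, T i x ∈ K)
    (hcomm : ∀ i j, ∀ x ∈ K, T i (T j x) = T j (T i x))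
    (p : ℕ) (S : Set ι) (lam : ι → ℤ) (y : V) (hy : y ∈ K) (hyp : ∀ z ∈ K, y ≠ p • z)
    (heig : ∀ i ∈ S, ∃ z ∈ K, T i y - lam i • y = p • z) :
    ∃ (v : V) (b : ι → integralClosure ℤ ℂ) (𝔪' : Ideal (integralClosure ℤ ℂ)),
      v ≠ 0 ∧ v ∈ Submodule.span ℂ (K : Set V) ∧ (∀ i, T i v = (b i : ℂ) • v) ∧
      𝔪'.IsMaximal ∧ ((p : ℕ) : integralClosure ℤ ℂ) ∈ 𝔪' ∧
      ∀ i ∈ S, b i - ((lam i : ℤ) : integralClosure ℤ ℂ) ∈ 𝔪' := by
  classical
  have hKW : ∀ x ∈ K, x ∈ Submodule.span ℂ (K : Set V) := fun x hx => Submodule.subset_span hx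
  have hTW : ∀ i, ∀ x ∈ Submodule.span ℂ (K : Set V), T i x ∈ Submodule.span ℂ (K : Set V) := by
    intro i x hx
    induction hx using Submodule.span_induction with
    | mem x hx => exact hKW _ (hstab i x hx)
    | zero => simp
    | add x y _ _ hx hy => rw [map_add]; exact Submodule.add_mem _ hx hy
    | smul c x _ hx => rw [map_smul]; exact Submodule.smul_mem _ c hx
  have hcommW : ∀ i j, ∀ x ∈ Submodule.span ℂ (K : Set V), T i (T j x) = T j (T i x) := by
    intro i j x hx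
    induction hx using Submodule.span_induction with
    | mem x hx => exact hcomm i j x hx
    | zero => simp
    | add x y _ _ hx hy => simp only [map_add, hx, hy]
    | smul c x _ hx => simp only [map_smul, hx]
  let T' : ι → Module.End ℂ (Submodule.span ℂ (K : Set V)) := fun i => (T i).restrict (hTW i)
  have hT' : ∀ i (w : Submodule.span ℂ (K : Set V)), ((T' i w : Submodule.span ℂ (K : Set V)) : V)
      = T i (w : V) := fun i w => rfl
  have hBcomm : ∀ a ∈ Set.range T', ∀ b ∈ Set.range T', a * b = b * a := by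
    rintro _ ⟨i, rfl⟩ _ ⟨j, rfl⟩
    ext w
    simp only [Module.End.mul_apply, hT']
    exact hcommW i j _ w.2
  have hmc : IsMulCommutative (Algebra.adjoin ℤ (Set.range T')) :=
    Algebra.isMulCommutative_adjoin ℤ hBcomm
  letI : CommRing (Algebra.adjoin ℤ (Set.range T')) :=
    { (inferInstance : Ring (Algebra.adjoin ℤ (Set.range T'))) with
      mul_comm := hmc.is_comm.comm }
  let ρ : Algebra.adjoin ℤ (Set.range T') →+* Module.End ℂ (Submodule.span ℂ (K : Set V)) :=
    (Algebra.adjoin ℤ (Set.range T')).val.toRingHom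
  let K' : AddSubgroup (Submodule.span ℂ (K : Set V)) :=
    K.comap (Submodule.span ℂ (K : Set V)).subtype.toAddMonoidHom
  have hK' : K'.FG := fg_comap_subtype _ K hKW hK
  have hspan : Submodule.span ℂ (K' : Set (Submodule.span ℂ (K : Set V))) = ⊤ :=
    Submodule.span_span_coe_preimage
  have hstab' : ∀ a, ∀ x ∈ K', ρ a x ∈ K' := by
    rintro ⟨a, ha⟩
    induction ha using Algebra.adjoin_induction with
    | mem a ha =>
      obtain ⟨i, rfl⟩ := ha
      intro x hx
      exact hstab i _ hx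
    | algebraMap n =>
      intro x hx
      show ((algebraMap ℤ (Module.End ℂ (Submodule.span ℂ (K : Set V))) n) x) ∈ K'
      rw [Module.algebraMap_end_apply]
      exact K'.zsmul_mem hx n
    | add a b _ _ ha hb =>
      intro x hx
      exact K'.add_mem (ha x hx) (hb x hx)
    | mul a b _ _ ha hb =>
      intro x hx
      exact ha _ (hb x hx)
  obtain ⟨g, χ, 𝔪', hg, hχ, h𝔪', hcong⟩ :=
    ds_abstract ρ K' hK' hspan hstab' p ⟨y, hKW y hy⟩ (by
      intro z hz h
      exact hyp (z : V) hz (by simpa using congrArg Subtype.val h))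
  let t : ι → Algebra.adjoin ℤ (Set.range T') := fun i =>
    ⟨T' i, Algebra.subset_adjoin (Set.mem_range_self i)⟩
  refine ⟨(g : V), fun i => χ (t i), 𝔪', ?_, g.2, fun i => ?_, h𝔪', ?_, fun i hi => ?_⟩
  · intro h
    exact hg (Subtype.ext h)
  · exact congrArg Subtype.val (hχ (t i))
  · have h1 := hcong ((p : ℕ) : Algebra.adjoin ℤ (Set.range T'))
      ⟨⟨y, hKW y hy⟩, hy, by
        apply Subtype.ext
        simp [ρ]⟩
    simpa using h1
  · obtain ⟨z, hz, hz1⟩ := heig i hi
    have h1 := hcong (t i - ((lam i : ℤ) : Algebra.adjoin ℤ (Set.range T')))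
      ⟨⟨z, hKW z hz⟩, hz, by
        apply Subtype.ext
        simp [ρ, t, hT', hz1]⟩
    simpa using h1

/-- Variant of `ds_general` recording that the eigenvector lies in any complex subspace
containing `K`. -/
theorem ds_general_mem (T : ι → Module.End ℂ V) (K : AddSubgroup V)
    (hK : K.FG) (hstab : ∀ i, ∀ x ∈ K, T i x ∈ K)
    (hcomm : ∀ i j, ∀ x ∈ K, T i (T j x) = T j (T i x))
    (p : ℕ) (S : Set ι) (lam : ι → ℤ) (y : V) (hy : y ∈ K) (hyp : ∀ z ∈ K, y ≠ p • z)
    (heig : ∀ i ∈ S, ∃ z ∈ K, T i y - lam i • y = p • z)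
    (U : Submodule ℂ V) (hU : ∀ x ∈ K, x ∈ U) :
    ∃ (v : V) (b : ι → integralClosure ℤ ℂ) (𝔪' : Ideal (integralClosure ℤ ℂ)),
      v ≠ 0 ∧ v ∈ U ∧ (∀ i, T i v = (b i : ℂ) • v) ∧
      𝔪'.IsMaximal ∧ ((p : ℕ) : integralClosure ℤ ℂ) ∈ 𝔪' ∧
      ∀ i ∈ S, b i - ((lam i : ℤ) : integralClosure ℤ ℂ) ∈ 𝔪' := by
  obtain ⟨v, b, 𝔪', hv, hvK, h⟩ := ds_general T K hK hstab hcomm p S lam y hy hyp heig
  exact ⟨v, b, 𝔪', hv, Submodule.span_le.mpr hU hvK, h⟩

end General

/-- **Block DS of row S41.** -/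
theorem ds : Spec.DSStatement := by
  intro ι V _ _ T K hK hstab hcomm p S lam y hy hyp heig
  exact ds_general T K hK hstab hcomm p S lam y hy hyp heig

end Fermat.Agent.S41.H401
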