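import Mathlib
import Fermat.Agent.S41.Spec.HK
import Fermat.Agent.S41.H401.DS

/-!
# Row S41, GLUE-B: the Deligne–Serre step in the language of `Spec/HK.lean`

`dsGlue_of` : from an integral cuspidal class `y` of level `N q`, killed by the two transfers
`t₁, t₂`, not divisible by `p` among such classes, with `T_l y ≡ a_l y mod p` for the primes `l`
with `P l`, we get a complex class `φ ≠ 0`, cuspidal, killed by `t₁, t₂`, eigenvector of ALL
`T_l` (`l ∤ N q`) with eigenvalues `b l ∈ ℤ̄`, and a maximal ideal `𝔪' ∋ p` of `ℤ̄` with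
`b l ≡ a l mod 𝔪'` when `P l`.  This is exactly the input of `Spec.NewStatement`.

Inputs: four leaves of block HK (all on main, `H761.hk`), as hypotheses.
-/

set_option autoImplicit false

namespace Fermat.Agent.S41.H401

open CongruenceSubgroup ModularCurve.Period
open Fermat.Agent.S29.H642 Fermat.Agent.S41.Spec
open scoped MatrixGroups

/-! ## Finite generation -/

theorem dsg_fg_SL2Z : Group.FG SL(2, ℤ) :=
  Group.fg_iff.mpr ⟨{ModularGroup.S, ModularGroup.T}, SpecialLinearGroup.SL2Z_generators,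
    Set.toFinite _⟩

theorem dsg_fg_Gamma0 (M : ℕ) [NeZero M] : Group.FG (Gamma0 M) := by
  have := dsg_fg_SL2Z
  exact Subgroup.fg_of_index_ne_zero (Gamma0 M)

/-- Homomorphisms from a finitely generated group to `ℤ` form a noetherian `ℤ`-module. -/
theorem dsg_isNoetherian_hom (G : Type*) [Group G] [hG : Group.FG G] :
    IsNoetherian ℤ (Additive G →+ ℤ) := by
  obtain ⟨S, hS, hSfin⟩ := Group.fg_iff.mp hG
  haveI : Finite S := hSfin
  let ev : (Additive G →+ ℤ) →ₗ[ℤ] (S → ℤ) :=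
    { toFun := fun φ s => φ (Additive.ofMul (s : G))
      map_add' := fun φ ψ => rfl
      map_smul' := fun c φ => rfl }
  have hinj : Function.Injective ev := by
    intro φ ψ h
    have h1 : ∀ s ∈ S, φ (Additive.ofMul s) = ψ (Additive.ofMul s) := fun s hs =>
      congrFun h ⟨s, hs⟩
    have h2 : ∀ g : G, φ (Additive.ofMul g) = ψ (Additive.ofMul g) := by
      intro g
      have hg : g ∈ Subgroup.closure S := hS ▸ Subgroup.mem_top g
      induction hg using Subgroup.closure_induction with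
      | mem x hx => exact h1 x hx
      | one => simp
      | mul x y _ _ hx hy => rw [ofMul_mul, map_add, map_add, hx, hy]
      | inv x _ hx => rw [ofMul_inv, map_neg, map_neg, hx]
    exact AddMonoidHom.ext fun γ => h2 (Additive.toMul γ)
  exact isNoetherian_of_injective ev hinj

/-! ## Linear structures -/

section Lin

variable {M : ℕ}

/-- `T_l` as an additive endomorphism of `X_M(A)`. -/
noncomputable def dsgHeckeAdd (A : Type*) [AddCommGroup A] {l : ℕ} [Fact l.Prime]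
    (hl : ¬ l ∣ M) : (Additive (Gamma0 M) →+ A) →+ (Additive (Gamma0 M) →+ A) :=
  AddMonoidHom.mk' (heckeTransfer hl) (heckeTransfer_add hl)

@[simp] theorem dsgHeckeAdd_apply (A : Type*) [AddCommGroup A] {l : ℕ} [Fact l.Prime]
    (hl : ¬ l ∣ M) (φ : Additive (Gamma0 M) →+ A) :
    dsgHeckeAdd A hl φ = heckeTransfer hl φ := rfl

theorem dsg_smul_eq_comp (c : ℂ) (φ : Additive (Gamma0 M) →+ ℂ) :
    c • φ = (AddMonoidHom.mulLeft c).comp φ := by
  ext γ
  simp [smul_eq_mul]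

/-- `T_l` as a `ℂ`-linear endomorphism of `X_M(ℂ)`. -/
noncomputable def dsgHeckeLin {l : ℕ} [Fact l.Prime] (hl : ¬ l ∣ M) :
    Module.End ℂ (Additive (Gamma0 M) →+ ℂ) where
  toFun := heckeTransfer hl
  map_add' := heckeTransfer_add hl
  map_smul' c φ := by
    simp only [RingHom.id_apply]
    rw [dsg_smul_eq_comp, heckeTransfer_comp, ← dsg_smul_eq_comp]

@[simp] theorem dsgHeckeLin_apply {l : ℕ} [Fact l.Prime] (hl : ¬ l ∣ M)
    (φ : Additive (Gamma0 M) →+ ℂ) : dsgHeckeLin hl φ = heckeTransfer hl φ := rfl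

/-- change of coefficients `ℤ → ℂ`. -/
noncomputable def dsgToC (M : ℕ) : (Additive (Gamma0 M) →+ ℤ) →+ (Additive (Gamma0 M) →+ ℂ) :=
  AddMonoidHom.compHom (Int.castAddHom ℂ)

theorem dsgToC_eq (z : Additive (Gamma0 M) →+ ℤ) :
    dsgToC M z = (Int.castAddHom ℂ).comp z := rfl

@[simp] theorem dsgToC_apply (z : Additive (Gamma0 M) →+ ℤ) (γ : Additive (Gamma0 M)) :
    dsgToC M z γ = ((z γ : ℤ) : ℂ) := rfl

theorem dsgToC_injective : Function.Injective (dsgToC M) := by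
  intro z z' h
  refine AddMonoidHom.ext fun γ => ?_
  have := congrArg (fun f : Additive (Gamma0 M) →+ ℂ => f γ) h
  simpa using this

end Lin

/-! ## Cuspidal classes: closure properties -/

section Cusp

variable {M : ℕ}

theorem dsg_isCuspidal_zero (A : Type*) [AddCommGroup A] :
    IsCuspidal (0 : Additive (Gamma0 M) →+ A) :=
  ⟨fun _ _ => rfl, fun _ _ => rfl⟩

theorem dsg_isCuspidal_add {A : Type*} [AddCommGroup A] {φ ψ : Additive (Gamma0 M) →+ A}
    (hφ : IsCuspidal φ) (hψ : IsCuspidal ψ) : IsCuspidal (φ + ψ) := by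
  refine ⟨fun γ hγ => ?_, fun γ hγ => ?_⟩
  · show φ (Additive.ofMul γ) + ψ (Additive.ofMul γ) = 0
    rw [hφ.1 γ hγ, hψ.1 γ hγ, add_zero]
  · show φ (Additive.ofMul γ) + ψ (Additive.ofMul γ) = 0
    rw [hφ.2 γ hγ, hψ.2 γ hγ, add_zero]

theorem dsg_isCuspidal_neg {A : Type*} [AddCommGroup A] {φ : Additive (Gamma0 M) →+ A}
    (hφ : IsCuspidal φ) : IsCuspidal (-φ) := by
  refine ⟨fun γ hγ => ?_, fun γ hγ => ?_⟩
  · show -φ (Additive.ofMul γ) = 0
    rw [hφ.1 γ hγ, neg_zero]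
  · show -φ (Additive.ofMul γ) = 0
    rw [hφ.2 γ hγ, neg_zero]

theorem dsg_isCuspidal_comp {A B : Type*} [AddCommGroup A] [AddCommGroup B] (π : A →+ B)
    {φ : Additive (Gamma0 M) →+ A} (hφ : IsCuspidal φ) : IsCuspidal (π.comp φ) := by
  refine ⟨fun γ hγ => ?_, fun γ hγ => ?_⟩
  · show π (φ (Additive.ofMul γ)) = 0
    rw [hφ.1 γ hγ, map_zero]
  · show π (φ (Additive.ofMul γ)) = 0
    rw [hφ.2 γ hγ, map_zero]

/-- Over `ℤ`, a class is cuspidal as soon as a nonzero multiple is. -/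
theorem dsg_isCuspidal_of_nsmul {p : ℕ} (hp : p ≠ 0) {z : Additive (Gamma0 M) →+ ℤ}
    (h : IsCuspidal (p • z)) : IsCuspidal z := by
  have key : ∀ γ : Gamma0 M, (p • z) (Additive.ofMul γ) = 0 → z (Additive.ofMul γ) = 0 := by
    intro γ hγ
    have h1 : (p : ℤ) * z (Additive.ofMul γ) = 0 := by
      simpa [AddMonoidHom.smul_apply] using hγ
    rcases mul_eq_zero.mp h1 with h2 | h2
    · exact absurd (by exact_mod_cast h2) hp
    · exact h2
  exact ⟨fun γ hγ => key γ (h.1 γ hγ), fun γ hγ => key γ (h.2 γ hγ)⟩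

end Cusp

/-! ## The main adapter -/

section Main

/-- Additivity of `t₁` (from HK-0), as an additive map. -/
noncomputable def dsgT1 (hfun : FunctorialityStatement.{0}) (N q : ℕ) (A : Type) [AddCommGroup A] :
    (Additive (Gamma0 (N * q)) →+ A) →+ (Additive (Gamma0 N) →+ A) :=
  AddMonoidHom.mk' (t₁ N q) (fun ψ ψ' => ((hfun N q A A (AddMonoidHom.id A)).2.1 ψ ψ').1)

/-- Additivity of `t₂` (from HK-0), as an additive map. -/
noncomputable def dsgT2 (hfun : FunctorialityStatement.{0}) (N q : ℕ) (A : Type) [AddCommGroup A] :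
    (Additive (Gamma0 (N * q)) →+ A) →+ (Additive (Gamma0 N) →+ A) :=
  AddMonoidHom.mk' (t₂ N q) (fun ψ ψ' => ((hfun N q A A (AddMonoidHom.id A)).2.1 ψ ψ').2)

@[simp] theorem dsgT1_apply (hfun : FunctorialityStatement.{0}) (N q : ℕ) (A : Type)
    [AddCommGroup A] (ψ : Additive (Gamma0 (N * q)) →+ A) : dsgT1 hfun N q A ψ = t₁ N q ψ := rfl

@[simp] theorem dsgT2_apply (hfun : FunctorialityStatement.{0}) (N q : ℕ) (A : Type)
    [AddCommGroup A] (ψ : Additive (Gamma0 (N * q)) →+ A) : dsgT2 hfun N q A ψ = t₂ N q ψ := rfl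

theorem dsg_t1_comp (hfun : FunctorialityStatement.{0}) (N q : ℕ) {A B : Type} [AddCommGroup A]
    [AddCommGroup B] (π : A →+ B) (ψ : Additive (Gamma0 (N * q)) →+ A) :
    t₁ N q (π.comp ψ) = π.comp (t₁ N q ψ) := ((hfun N q A B π).2.2.2 ψ).1

theorem dsg_t2_comp (hfun : FunctorialityStatement.{0}) (N q : ℕ) {A B : Type} [AddCommGroup A]
    [AddCommGroup B] (π : A →+ B) (ψ : Additive (Gamma0 (N * q)) →+ A) :
    t₂ N q (π.comp ψ) = π.comp (t₂ N q ψ) := ((hfun N q A B π).2.2.2 ψ).2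

/-- The lattice of integral `q`-new cuspidal classes. -/
noncomputable def dsgNewLattice (hfun : FunctorialityStatement.{0}) (N q : ℕ) :
    AddSubgroup (Additive (Gamma0 (N * q)) →+ ℤ) where
  carrier := {z | IsCuspidal z ∧ t₁ N q z = 0 ∧ t₂ N q z = 0}
  zero_mem' := ⟨dsg_isCuspidal_zero ℤ, (dsgT1 hfun N q ℤ).map_zero, (dsgT2 hfun N q ℤ).map_zero⟩
  add_mem' := by
    rintro z z' ⟨h, h1, h2⟩ ⟨h', h1', h2'⟩
    refine ⟨dsg_isCuspidal_add h h', ?_, ?_⟩
    · have := (dsgT1 hfun N q ℤ).map_add z z'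
      simp only [dsgT1_apply] at this
      rw [this, h1, h1', add_zero]
    · have := (dsgT2 hfun N q ℤ).map_add z z'
      simp only [dsgT2_apply] at this
      rw [this, h2, h2', add_zero]
  neg_mem' := by
    rintro z ⟨h, h1, h2⟩
    refine ⟨dsg_isCuspidal_neg h, ?_, ?_⟩
    · have := (dsgT1 hfun N q ℤ).map_neg z
      simp only [dsgT1_apply] at this
      rw [this, h1, neg_zero]
    · have := (dsgT2 hfun N q ℤ).map_neg z
      simp only [dsgT2_apply] at this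
      rw [this, h2, neg_zero]

theorem mem_dsgNewLattice (hfun : FunctorialityStatement.{0}) (N q : ℕ)
    (z : Additive (Gamma0 (N * q)) →+ ℤ) :
    z ∈ dsgNewLattice hfun N q ↔ IsCuspidal z ∧ t₁ N q z = 0 ∧ t₂ N q z = 0 := Iff.rfl

/-- The complex subspace of `q`-new cuspidal classes. -/
noncomputable def dsgNewSpace (hfun : FunctorialityStatement.{0}) (N q : ℕ) :
    Submodule ℂ (Additive (Gamma0 (N * q)) →+ ℂ) where
  carrier := {φ | IsCuspidal φ ∧ t₁ N q φ = 0 ∧ t₂ N q φ = 0}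
  zero_mem' := ⟨dsg_isCuspidal_zero ℂ, (dsgT1 hfun N q ℂ).map_zero, (dsgT2 hfun N q ℂ).map_zero⟩
  add_mem' := by
    rintro z z' ⟨h, h1, h2⟩ ⟨h', h1', h2'⟩
    refine ⟨dsg_isCuspidal_add h h', ?_, ?_⟩
    · have := (dsgT1 hfun N q ℂ).map_add z z'
      simp only [dsgT1_apply] at this
      rw [this, h1, h1', add_zero]
    · have := (dsgT2 hfun N q ℂ).map_add z z'
      simp only [dsgT2_apply] at this
      rw [this, h2, h2', add_zero]
  smul_mem' := by
    rintro c z ⟨h, h1, h2⟩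
    refine ⟨?_, ?_, ?_⟩
    · rw [dsg_smul_eq_comp]
      exact dsg_isCuspidal_comp _ h
    · rw [dsg_smul_eq_comp, dsg_t1_comp hfun, h1]
      exact AddMonoidHom.comp_zero _
    · rw [dsg_smul_eq_comp, dsg_t2_comp hfun, h2]
      exact AddMonoidHom.comp_zero _

theorem mem_dsgNewSpace (hfun : FunctorialityStatement.{0}) (N q : ℕ)
    (φ : Additive (Gamma0 (N * q)) →+ ℂ) :
    φ ∈ dsgNewSpace hfun N q ↔ IsCuspidal φ ∧ t₁ N q φ = 0 ∧ t₂ N q φ = 0 := Iff.rfl

theorem dsgToC_mem_newSpace (hfun : FunctorialityStatement.{0}) (N q : ℕ)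
    {z : Additive (Gamma0 (N * q)) →+ ℤ} (hz : z ∈ dsgNewLattice hfun N q) :
    dsgToC (N * q) z ∈ dsgNewSpace hfun N q := by
  obtain ⟨h, h1, h2⟩ := hz
  refine ⟨dsg_isCuspidal_comp _ h, ?_, ?_⟩
  · rw [dsgToC_eq, dsg_t1_comp hfun, h1]
    exact AddMonoidHom.comp_zero _
  · rw [dsgToC_eq, dsg_t2_comp hfun, h2]
    exact AddMonoidHom.comp_zero _

/-- The new lattice is stable under the Hecke operators. -/
theorem hecke_mem_dsgNewLattice (hfun : FunctorialityStatement.{0})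
    (hcusp : HeckeCuspStatement.{0}) (htr : HeckeTransferStatement.{0})
    (N q : ℕ) (hNq : N * q ≠ 0) {l : ℕ} [Fact l.Prime] (hl : ¬ l ∣ N * q)
    {z : Additive (Gamma0 (N * q)) →+ ℤ} (hz : z ∈ dsgNewLattice hfun N q) :
    heckeTransfer hl z ∈ dsgNewLattice hfun N q := by
  obtain ⟨h, h1, h2⟩ := hz
  have hlN : ¬ l ∣ N := fun h' => hl (dvd_mul_of_dvd_left h' q)
  have h0 : heckeTransfer hlN (0 : Additive (Gamma0 N) →+ ℤ) = 0 :=
    (dsgHeckeAdd ℤ hlN).map_zero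
  refine ⟨hcusp (N * q) l hl ℤ z h, ?_, ?_⟩
  · rw [← (htr N q l hlN hl hNq ℤ z).1, h1, h0]
  · rw [← (htr N q l hlN hl hNq ℤ z).2, h2, h0]

/-- torsion-freeness of `X_N(ℤ)`. -/
theorem dsg_eq_zero_of_nsmul {M : ℕ} {p : ℕ} (hp : p ≠ 0) {w : Additive (Gamma0 M) →+ ℤ}
    (h : p • w = 0) : w = 0 := by
  refine AddMonoidHom.ext fun γ => ?_
  have h1 : (p : ℤ) * w γ = 0 := by
    have := congrArg (fun f : Additive (Gamma0 M) →+ ℤ => f γ) h
    simpa [AddMonoidHom.smul_apply] using this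
  rcases mul_eq_zero.mp h1 with h2 | h2
  · exact absurd (by exact_mod_cast h2) hp
  · exact h2

/-- **GLUE-B (Deligne–Serre step of S41).** -/
theorem dsGlue_of (hfun : FunctorialityStatement.{0}) (hcusp : HeckeCuspStatement.{0})
    (htr : HeckeTransferStatement.{0}) (hcomm : HeckeCommStatement.{0})
    (N q p : ℕ) (hNq : N * q ≠ 0) (hp : p ≠ 0) (P : ℕ → Prop) (a : ℕ → ℤ)
    (y : Additive (Gamma0 (N * q)) →+ ℤ) (hy : IsCuspidal y)
    (h1 : t₁ N q y = 0) (h2 : t₂ N q y = 0)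
    (hyp : ∀ z : Additive (Gamma0 (N * q)) →+ ℤ, IsCuspidal z → t₁ N q z = 0 → t₂ N q z = 0 →
      y ≠ p • z)
    (heig : ∀ (l : ℕ) [Fact l.Prime] (hl : ¬ l ∣ N * q), P l →
      ∃ z : Additive (Gamma0 (N * q)) →+ ℤ, heckeTransfer hl y - a l • y = p • z) :
    ∃ (φ : Additive (Gamma0 (N * q)) →+ ℂ) (b : ℕ → integralClosure ℤ ℂ)
      (𝔪' : Ideal (integralClosure ℤ ℂ)),
      φ ≠ 0 ∧ IsCuspidal φ ∧ φ ∈ parabolicHoms ℂ (Gamma0 (N * q)) ℂ ∧
      t₁ N q φ = 0 ∧ t₂ N q φ = 0 ∧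
      (∀ (l : ℕ) [Fact l.Prime] (hl : ¬ l ∣ N * q), heckeTransfer hl φ = (b l : ℂ) • φ) ∧
      𝔪'.IsMaximal ∧ ((p : ℕ) : integralClosure ℤ ℂ) ∈ 𝔪' ∧
      ∀ l : ℕ, l.Prime → ¬ l ∣ N * q → P l →
        b l - ((a l : ℤ) : integralClosure ℤ ℂ) ∈ 𝔪' := by
  classical
  haveI : NeZero (N * q) := ⟨hNq⟩
  haveI : Group.FG (Gamma0 (N * q)) := dsg_fg_Gamma0 (N * q)
  haveI : IsNoetherian ℤ (Additive (Gamma0 (N * q)) →+ ℤ) := dsg_isNoetherian_hom _
  -- index set and operators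
  let ι : Type := {l : ℕ // l.Prime ∧ ¬ l ∣ N * q}
  let T : ι → Module.End ℂ (Additive (Gamma0 (N * q)) →+ ℂ) := fun i =>
    haveI : Fact i.1.Prime := ⟨i.2.1⟩
    dsgHeckeLin i.2.2
  let K₀ := dsgNewLattice hfun N q
  let K : AddSubgroup (Additive (Gamma0 (N * q)) →+ ℂ) := K₀.map (dsgToC (N * q))
  -- finite generation
  have hK₀fg : K₀.FG := by
    have h := IsNoetherian.noetherian (AddSubgroup.toIntSubmodule K₀)
    rw [Submodule.fg_iff_addSubgroup_fg] at h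
    exact h
  have hKfg : K.FG := by
    obtain ⟨s, hs⟩ := hK₀fg
    refine ⟨s.image (dsgToC (N * q)), ?_⟩
    rw [Finset.coe_image, ← AddMonoidHom.map_closure, hs]
  -- compatibility of T with change of coefficients
  have hTC : ∀ (i : ι) (z : Additive (Gamma0 (N * q)) →+ ℤ),
      T i (dsgToC (N * q) z) = dsgToC (N * q)
        (haveI : Fact i.1.Prime := ⟨i.2.1⟩; heckeTransfer i.2.2 z) := by
    intro i z
    haveI : Fact i.1.Prime := ⟨i.2.1⟩
    show heckeTransfer i.2.2 (dsgToC (N * q) z) = _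
    rw [dsgToC_eq, heckeTransfer_comp]
    rfl
  have hstab : ∀ i, ∀ x ∈ K, T i x ∈ K := by
    rintro i x ⟨z, hz, rfl⟩
    haveI : Fact i.1.Prime := ⟨i.2.1⟩
    rw [hTC]
    exact ⟨_, hecke_mem_dsgNewLattice hfun hcusp htr N q hNq i.2.2 hz, rfl⟩
  have hcommK : ∀ i j, ∀ x ∈ K, T i (T j x) = T j (T i x) := by
    intro i j x _
    haveI : Fact i.1.Prime := ⟨i.2.1⟩
    haveI : Fact j.1.Prime := ⟨j.2.1⟩
    exact hcomm (N * q) i.1 j.1 i.2.2 j.2.2 ℂ x
  have hyK₀ : y ∈ K₀ := ⟨hy, h1, h2⟩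
  have hyK : dsgToC (N * q) y ∈ K := ⟨y, hyK₀, rfl⟩
  have hyp' : ∀ z ∈ K, dsgToC (N * q) y ≠ p • z := by
    rintro _ ⟨z, hz, rfl⟩ h
    rw [← map_nsmul] at h
    exact hyp z hz.1 hz.2.1 hz.2.2 (dsgToC_injective h)
  have heig' : ∀ i ∈ {i : ι | P i.1}, ∃ z ∈ K,
      T i (dsgToC (N * q) y) - a i.1 • dsgToC (N * q) y = p • z := by
    intro i hi
    haveI : Fact i.1.Prime := ⟨i.2.1⟩
    obtain ⟨z, hz⟩ := heig i.1 i.2.2 hi
    have hTy := hecke_mem_dsgNewLattice hfun hcusp htr N q hNq i.2.2 hyK₀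
    have hpz : p • z ∈ K₀ := by
      rw [← hz]
      exact K₀.sub_mem hTy (K₀.zsmul_mem hyK₀ _)
    have hzK₀ : z ∈ K₀ := by
      refine ⟨dsg_isCuspidal_of_nsmul hp hpz.1, ?_, ?_⟩
      · apply dsg_eq_zero_of_nsmul hp
        have := map_nsmul (dsgT1 hfun N q ℤ) p z
        simp only [dsgT1_apply] at this
        rw [← this]
        exact hpz.2.1
      · apply dsg_eq_zero_of_nsmul hp
        have := map_nsmul (dsgT2 hfun N q ℤ) p z
        simp only [dsgT2_apply] at this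
        rw [← this]
        exact hpz.2.2
    refine ⟨dsgToC (N * q) z, ⟨z, hzK₀, rfl⟩, ?_⟩
    rw [hTC, ← map_zsmul, ← map_sub, ← map_nsmul, hz]
  obtain ⟨v, b, 𝔪', hv, hvU, hTv, h𝔪', hp𝔪', hb⟩ :=
    ds_general_mem T K hKfg hstab hcommK p {i : ι | P i.1} (fun i => a i.1)
      (dsgToC (N * q) y) hyK hyp' heig' (dsgNewSpace hfun N q)
      (by
        rintro _ ⟨z, hz, rfl⟩
        exact dsgToC_mem_newSpace hfun N q hz)
  refine ⟨v, fun l => if h : l.Prime ∧ ¬ l ∣ N * q then b ⟨l, h⟩ else 0, 𝔪', hv, hvU.1, hvU.1.1,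
    hvU.2.1, hvU.2.2, ?_, h𝔪', hp𝔪', ?_⟩
  · intro l hlp hl
    have h : l.Prime ∧ ¬ l ∣ N * q := ⟨hlp.out, hl⟩
    simp only [dif_pos h]
    exact hTv ⟨l, h⟩
  · intro l hlp hl hPl
    have h : l.Prime ∧ ¬ l ∣ N * q := ⟨hlp, hl⟩
    simp only [dif_pos h]
    exact hb ⟨l, h⟩ hPl

end Main

end Fermat.Agent.S41.H401
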