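import Mathlib
import Fermat.Agent.S41.Spec.New
import Fermat.Agent.S41.H401.DSGlue

/-!
# Row S41, GLUE-B: Deligne–Serre step + block NEW = the tail of S41

`dsNew_of` : from the four HK leaves, `Spec.NewStatement` and an integral `q`-new cuspidal class
`y` of level `N q` which is an eigenvector mod `p` (see `dsGlue_of`), we get the normalized
eigenform `g` of level `N q`, new at `q`, and the maximal ideal `𝔪' ∋ p` with
`a_l(g) ≡ a l mod 𝔪'` for the primes `l ∤ N q` with `P l` — literally the conclusion of S41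
(with `P l := W.IsGoodPrimeFor l ∧ l ≠ p`, `a l := W.apOfModel l`).
-/

set_option autoImplicit false

namespace Fermat.Agent.S41.H401

open CongruenceSubgroup ModularCurve.Period ModularFormClass
open Fermat.Agent.S29.H642 Fermat.Agent.S41.Spec
open scoped MatrixGroups

/-- **GLUE-B, final form.** -/
theorem dsNew_of (hfun : FunctorialityStatement.{0}) (hcusp : HeckeCuspStatement.{0})
    (htr : HeckeTransferStatement.{0}) (hcomm : HeckeCommStatement.{0}) (hnew : NewStatement)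
    (N q p : ℕ) (hN : N ≠ 0) (hq : q.Prime) (hqN : ¬ q ∣ N) (hp : p ≠ 0)
    (P : ℕ → Prop) (a : ℕ → ℤ)
    (y : Additive (Gamma0 (N * q)) →+ ℤ) (hy : IsCuspidal y)
    (h1 : t₁ N q y = 0) (h2 : t₂ N q y = 0)
    (hyp : ∀ z : Additive (Gamma0 (N * q)) →+ ℤ, IsCuspidal z → t₁ N q z = 0 → t₂ N q z = 0 →
      y ≠ p • z)
    (heig : ∀ (l : ℕ) [Fact l.Prime] (hl : ¬ l ∣ N * q), P l →
      ∃ z : Additive (Gamma0 (N * q)) →+ ℤ, heckeTransfer hl y - a l • y = p • z) :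
    ∃ (g : CuspForm (Gamma0 (N * q)) 2) (𝔪' : Ideal (integralClosure ℤ ℂ)),
      g.IsNormalizedEigenform ∧ 𝔪'.IsMaximal ∧ ((p : ℕ) : integralClosure ℤ ℂ) ∈ 𝔪' ∧
      (∀ l : ℕ, l.Prime → ¬ l ∣ N * q → P l →
        ∃ a' : integralClosure ℤ ℂ, (a' : ℂ) = qCoeff g l ∧
          a' - ((a l : ℤ) : integralClosure ℤ ℂ) ∈ 𝔪') ∧
      g.IsNewAt q := by
  have hNq : N * q ≠ 0 := Nat.mul_ne_zero hN hq.ne_zero
  obtain ⟨φ, b, 𝔪', hφ0, _, hφpar, ht1, ht2, hTφ, h𝔪', hp𝔪', hb⟩ :=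
    dsGlue_of hfun hcusp htr hcomm N q p hNq hp P a y hy h1 h2 hyp heig
  obtain ⟨g, hg, hgb, hgnew⟩ := hnew N q hN hq hqN P (fun l => (b l : ℂ)) φ hφpar hφ0
    (fun l _ hl _ => hTφ l hl) ht1 ht2
  exact ⟨g, 𝔪', hg, h𝔪', hp𝔪',
    fun l hl hlN hPl => ⟨b l, (hgb l hl hlN hPl).symm, hb l hl hlN hPl⟩, hgnew⟩

end Fermat.Agent.S41.H401
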