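import Mathlib
import Fermat.Agent.S41.H761.HK
import Fermat.Agent.S41.H401.DSNew

/-!
# Row S41, GLUE-B with block HK discharged (`H761.hk`, on main)

* `dsGlue` : `dsGlue_of` without the HK hypotheses;
* `dsNew`  : `dsNew_of` with `Spec.NewStatement` as the only hypothesis.
-/

set_option autoImplicit false

namespace Fermat.Agent.S41.H401

open CongruenceSubgroup ModularCurve.Period ModularFormClass
open Fermat.Agent.S29.H642 Fermat.Agent.S41.Spec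
open scoped MatrixGroups

/-- **GLUE-B (Deligne–Serre step of S41)**, unconditional. -/
theorem dsGlue (N q p : ℕ) (hNq : N * q ≠ 0) (hp : p ≠ 0) (P : ℕ → Prop) (a : ℕ → ℤ)
    (y : Additive (Gamma0 (N * q)) →+ ℤ) (hy : IsCuspidal y)
    (h1 : t₁ N q y = 0) (h2 : t₂ N q y = 0)
    (hyp : ∀ z : Additive (Gamma0 (N * q)) →+ ℤ, IsCuspidal z → t₁ N q z = 0 → t₂ N q z = 0 →
      y ≠ p • z)
    (heig : ∀ (l : ℕ) [Fact l.Prime] (hl : ¬ l ∣ N * q), P l →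
      ∃ z : Additive (Gamma0 (N * q)) →+ ℤ, heckeTransfer hl y - a l • y = p • z) :
    ∃ (φ : Additive (Gamma0 (N * q)) →+ ℂ) (b : ℕ → integralClosure ℤ ℂ)
      (𝔪' : Ideal (integralClosure ℤ ℂ)),
      φ ≠ 0 ∧ IsCuspidal φ ∧ φ ∈ parabolicHoms ℂ (Gamma0 (N * q)) ℂ ∧
      t₁ N q φ = 0 ∧ t₂ N q φ = 0 ∧
      (∀ (l : ℕ) [Fact l.Prime] (hl : ¬ l ∣ N * q), heckeTransfer hl φ = (b l : ℂ) • φ) ∧
      𝔪'.IsMaximal ∧ ((p : ℕ) : integralClosure ℤ ℂ) ∈ 𝔪' ∧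
      ∀ l : ℕ, l.Prime → ¬ l ∣ N * q → P l →
        b l - ((a l : ℤ) : integralClosure ℤ ℂ) ∈ 𝔪' :=
  dsGlue_of H761.hk.1 H761.hk.2.2.2.1 H761.hk.2.2.2.2.2.1 H761.hk.2.2.2.2.2.2.2.2
    N q p hNq hp P a y hy h1 h2 hyp heig

/-- **GLUE-B, final form**, with `Spec.NewStatement` as the only hypothesis. -/
theorem dsNew (hnew : NewStatement)
    (N q p : ℕ) (hN : N ≠ 0) (hq : q.Prime) (hqN : ¬ q ∣ N) (hp : p ≠ 0)
    (P : ℕ → Prop) (a : ℕ → ℤ)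
    (y : Additive (Gamma0 (N * q)) →+ ℤ) (hy : IsCuspidal y)
    (h1 : t₁ N q y = 0) (h2 : t₂ N q y = 0)
    (hyp : ∀ z : Additive (Gamma0 (N * q)) →+ ℤ, IsCuspidal z → t₁ N q z = 0 → t₂ N q z = 0 →
      y ≠ p • z)
    (heig : ∀ (l : ℕ) [Fact l.Prime] (hl : ¬ l ∣ N * q), P l →
      ∃ z : Additive (Gamma0 (N * q)) →+ ℤ, heckeTransfer hl y - a l • y = p • z) :
    ∃ (g : CuspForm (Gamma0 (N * q)) 2) (𝔪' : Ideal (integralClosure ℤ ℂ)),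
      g.IsNormalizedEigenform ∧ 𝔪'.IsMaximal ∧ ((p : ℕ) : integralClosure ℤ ℂ) ∈ 𝔪' ∧
      (∀ l : ℕ, l.Prime → ¬ l ∣ N * q → P l →
        ∃ a' : integralClosure ℤ ℂ, (a' : ℂ) = qCoeff g l ∧
          a' - ((a l : ℤ) : integralClosure ℤ ℂ) ∈ 𝔪') ∧
      g.IsNewAt q :=
  dsNew_of H761.hk.1 H761.hk.2.2.2.1 H761.hk.2.2.2.2.2.1 H761.hk.2.2.2.2.2.2.2.2 hnew
    N q p hN hq hqN hp P a y hy h1 h2 hyp heig

end Fermat.Agent.S41.H401
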